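import Fermat.Agent.SL2Pres.Comb
import Fermat.Agent.EichlerShimura.Period

/-!
# Lifting of parabolic homomorphisms

Main result: `exists_lift_hom`: for a finite index subgroup `Γ ∋ -1` of `SL(2, ℤ)` and a surjection
`A → B` of abelian groups with `A` torsion free, every homomorphism `Γ → B` killing all elements
with `trace ^ 2 ≤ 4` lifts to such a homomorphism `Γ → A`.
-/

set_option autoImplicit false

noncomputable section

namespace Fermat.Agent.SL2Pres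

open ModularGroup
open scoped MatrixGroups

/-! ### cocycles from Manin symbols -/

section Cocycle

variable {X A : Type*} [AddCommGroup A] [MulAction SL(2, ℤ) X]

/-- the cocycle condition -/
def IsCoc (c : SL(2, ℤ) → X → A) : Prop := ∀ g h x, c (g * h) x = c g (h • x) + c h x

lemma IsCoc.one {c : SL(2, ℤ) → X → A} (hc : IsCoc c) (x : X) : c 1 x = 0 := by
  have := hc 1 1 x
  rw [mul_one, one_smul] at this
  simpa using this

lemma IsCoc.inv {c : SL(2, ℤ) → X → A} (hc : IsCoc c) (g : SL(2, ℤ)) (x : X) :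
    c g⁻¹ x = - c g (g⁻¹ • x) := by
  have := hc g g⁻¹ x
  rw [mul_inv_cancel, hc.one] at this
  rw [eq_neg_iff_add_eq_zero, add_comm]
  exact this.symm

lemma IsCoc.ext {c c' : SL(2, ℤ) → X → A} (hc : IsCoc c) (hc' : IsCoc c')
    (h1 : ∀ x, c S x = c' S x) (h2 : ∀ x, c (S * T) x = c' (S * T) x) (g : SL(2, ℤ)) (x : X) :
    c g x = c' g x := by
  have hg : g ∈ Subgroup.closure ({S, S * T} : Set SL(2, ℤ)) := by rw [closure_S_V]; trivial
  induction hg using Subgroup.closure_induction generalizing x with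
  | mem g hg =>
    rcases hg with rfl | rfl
    · exact h1 x
    · exact h2 x
  | one => rw [hc.one, hc'.one]
  | mul g h _ _ h1 h2 => rw [hc, hc', h1, h2]
  | inv g _ h => rw [hc.inv, hc'.inv, h]

/-- affine permutations -/
def aff (g : SL(2, ℤ)) (u : X → A) : Equiv.Perm (X × A) where
  toFun p := (g • p.1, p.2 + u p.1)
  invFun p := (g⁻¹ • p.1, p.2 - u (g⁻¹ • p.1))
  left_inv p := by simp
  right_inv p := by simp

lemma aff_apply (g : SL(2, ℤ)) (u : X → A) (x : X) (a : A) :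
    aff g u (x, a) = (g • x, a + u x) := rfl

lemma aff_mul (g h : SL(2, ℤ)) (u w : X → A) :
    aff g u * aff h w = aff (g * h) (fun x => u (h • x) + w x) := by
  ext ⟨x, a⟩
  · rw [Equiv.Perm.mul_apply, aff_apply, aff_apply, aff_apply, smul_smul]
  · rw [Equiv.Perm.mul_apply, aff_apply, aff_apply, aff_apply]
    simp only
    abel

lemma aff_eq_one {g : SL(2, ℤ)} {u : X → A} (hg : ∀ x : X, g • x = x) (hu : ∀ x, u x = 0) :
    aff g u = 1 := by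
  ext ⟨x, a⟩
  · rw [aff_apply, hg]; rfl
  · rw [aff_apply, hu]
    simp

/-- cocycles from Manin symbols -/
theorem exists_coc (hX : ∀ x : X, (-1 : SL(2, ℤ)) • x = x) {ξ : X → A} (hξ : IsManin ξ) :
    ∃ c : SL(2, ℤ) → X → A, IsCoc c ∧ (∀ x, c S x = ξ x) ∧
      (∀ x, c (S * T) x = - ξ ((S * T : SL(2, ℤ)) • x)) := by
  have hs : ∀ x : X, (S : SL(2, ℤ)) • (S : SL(2, ℤ)) • x = x := by
    intro x
    rw [smul_smul, ← sq, S_sq', hX]
  have hv : ∀ x : X, (S * T : SL(2, ℤ)) • (S * T : SL(2, ℤ)) • (S * T : SL(2, ℤ)) • x = x := by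
    intro x
    rw [smul_smul, smul_smul, ← sq, ← pow_succ, V_cube', hX]
  have ha : (aff S ξ) ^ 2 = 1 := by
    rw [sq, aff_mul]
    apply aff_eq_one
    · intro x; rw [mul_smul, hs]
    · intro x; rw [add_comm]; exact hξ.two x
  have hb : (aff (S * T) (fun x => - ξ ((S * T : SL(2, ℤ)) • x))) ^ 3 = 1 := by
    rw [pow_succ, sq, aff_mul, aff_mul]
    apply aff_eq_one
    · intro x; rw [mul_smul, mul_smul (S * T), hv]
    · intro x
      have := hξ.three x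
      rw [hv]
      rw [← neg_eq_zero] at this
      rw [← this]
      abel
  obtain ⟨Ψ, hS, hV⟩ := exists_hom ha hb
  have key : ∀ g : SL(2, ℤ), ∃ u : X → A, Ψ g = aff g u := by
    intro g
    have hg : g ∈ Subgroup.closure ({S, S * T} : Set SL(2, ℤ)) := by rw [closure_S_V]; trivial
    induction hg using Subgroup.closure_induction with
    | mem g hg =>
      rcases hg with rfl | rfl
      · exact ⟨_, hS⟩
      · exact ⟨fun x => - ξ ((S * T : SL(2, ℤ)) • x), hV⟩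
    | one =>
      refine ⟨0, ?_⟩
      rw [map_one]
      symm
      exact aff_eq_one (fun x => one_smul _ x) (fun x => rfl)
    | mul g h _ _ h1 h2 =>
      obtain ⟨u, hu⟩ := h1
      obtain ⟨w, hw⟩ := h2
      refine ⟨fun x => u (h • x) + w x, ?_⟩
      rw [map_mul, hu, hw, aff_mul]
    | inv g _ h =>
      obtain ⟨u, hu⟩ := h
      refine ⟨fun x => - u (g⁻¹ • x), ?_⟩
      rw [map_inv, hu, inv_eq_iff_mul_eq_one, aff_mul]
      apply aff_eq_one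
      · intro x; rw [mul_inv_cancel, one_smul]
      · intro x; rw [add_neg_cancel]
  choose u hu using key
  refine ⟨u, fun g h x => ?_, fun x => ?_, fun x => ?_⟩
  · have h1 : Ψ (g * h) (x, 0) = Ψ g (Ψ h (x, 0)) := by rw [map_mul]; rfl
    rw [hu, hu, hu, aff_apply, aff_apply, aff_apply] at h1
    have h2 := congrArg Prod.snd h1
    simp only [zero_add] at h2
    rw [h2, add_comm]
  · have h1 : Ψ S (x, 0) = aff S ξ (x, 0) := by rw [hS]
    rw [hu, aff_apply, aff_apply] at h1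
    simpa using congrArg Prod.snd h1
  · have h1 : Ψ (S * T) (x, 0) = aff (S * T) (fun x => - ξ ((S * T : SL(2, ℤ)) • x)) (x, 0) := by
      rw [hV]
    rw [hu, aff_apply, aff_apply] at h1
    simpa using congrArg Prod.snd h1

lemma coc_T {c : SL(2, ℤ) → X → A} (hc : IsCoc c) {ξ : X → A} (hξ : IsManin ξ)
    (h1 : ∀ x, c S x = ξ x) (h2 : ∀ x, c (S * T) x = - ξ ((S * T : SL(2, ℤ)) • x)) (x : X) :
    c T x = 0 := by
  have h3 := hc S T x
  rw [h1, h2] at h3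
  have h4 := hξ.two ((T : SL(2, ℤ)) • x)
  rw [smul_smul] at h4
  have h5 : ξ ((S * T : SL(2, ℤ)) • x) = - ξ ((T : SL(2, ℤ)) • x) := by
    rw [eq_neg_iff_add_eq_zero, add_comm]; exact h4
  rw [h5, neg_neg] at h3
  simpa using h3

lemma coc_neg_one {c : SL(2, ℤ) → X → A} (hc : IsCoc c) {ξ : X → A} (hξ : IsManin ξ)
    (h1 : ∀ x, c S x = ξ x) (x : X) : c (-1) x = 0 := by
  rw [← S_sq', sq, hc, h1, h1, add_comm]
  exact hξ.two x

lemma coc_T_zpow {c : SL(2, ℤ) → X → A} (hc : IsCoc c) (hT : ∀ x, c T x = 0) (k : ℤ) (x : X) :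
    c (T ^ k) x = 0 := by
  induction k generalizing x with
  | zero => rw [zpow_zero, hc.one]
  | succ n ih => rw [zpow_add_one, hc, ih, hT, add_zero]
  | pred n ih => rw [zpow_sub_one, hc, ih, hc.inv, hT, neg_zero, add_zero]

lemma upper_eq {t : SL(2, ℤ)} (ht : t 1 0 = 0) : ∃ k : ℤ, t = T ^ k ∨ t = (-1) * T ^ k := by
  have hdet := t.det_coe
  rw [Matrix.det_fin_two, ht, mul_zero, sub_zero] at hdet
  rcases Int.mul_eq_one_iff_eq_one_or_neg_one.mp hdet with ⟨h1, h2⟩ | ⟨h1, h2⟩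
  · refine ⟨t 0 1, Or.inl ?_⟩
    ext i j
    rw [coe_T_zpow]
    fin_cases i <;> fin_cases j <;> simp [h1, h2, ht]
  · refine ⟨- t 0 1, Or.inr ?_⟩
    ext i j
    rw [Matrix.SpecialLinearGroup.coe_mul, coe_T_zpow]
    fin_cases i <;> fin_cases j <;> simp [h1, h2, ht]

lemma coc_upper {c : SL(2, ℤ) → X → A} (hc : IsCoc c) (hT : ∀ x, c T x = 0)
    (hm : ∀ x, c (-1) x = 0) {t : SL(2, ℤ)} (ht : t 1 0 = 0) (x : X) : c t x = 0 := by
  obtain ⟨k, rfl | rfl⟩ := upper_eq ht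
  · exact coc_T_zpow hc hT k x
  · rw [hc, hm, coc_T_zpow hc hT, add_zero]

end Cocycle

/-! ### functions on cusps -/

section Cusp

variable {Γ : Subgroup SL(2, ℤ)} {B : Type*} [AddCommGroup B]

/-- upper triangular matrices -/
def PP : Subgroup SL(2, ℤ) where
  carrier := {g | g 1 0 = 0}
  one_mem' := by simp
  mul_mem' := by
    intro a b ha hb
    change (a * b) 1 0 = 0
    rw [Matrix.SpecialLinearGroup.coe_mul, Matrix.mul_apply, Fin.sum_univ_two]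
    change a 1 0 * b 0 0 + a 1 1 * b 1 0 = 0
    rw [show a 1 0 = 0 from ha, show b 1 0 = 0 from hb]
    ring
  inv_mem' := by
    intro a ha
    change (a⁻¹ : SL(2, ℤ)) 1 0 = 0
    rw [Matrix.SpecialLinearGroup.coe_inv, Matrix.adjugate_fin_two]
    simpa using ha

lemma mem_PP {g : SL(2, ℤ)} : g ∈ PP ↔ g 1 0 = 0 := Iff.rfl

lemma trace_of_mem_PP {g : SL(2, ℤ)} (hg : g ∈ PP) :
    (g : Matrix (Fin 2) (Fin 2) ℤ).trace ^ 2 = 4 := by
  have hdet := g.det_coe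
  rw [Matrix.det_fin_two, mem_PP.mp hg, mul_zero, sub_zero] at hdet
  rw [Matrix.trace_fin_two]
  rcases Int.mul_eq_one_iff_eq_one_or_neg_one.mp hdet with ⟨h1, h2⟩ | ⟨h1, h2⟩ <;>
    rw [h1, h2] <;> norm_num

lemma trace_conj (g h : SL(2, ℤ)) :
    ((g * h * g⁻¹ : SL(2, ℤ)) : Matrix (Fin 2) (Fin 2) ℤ).trace =
      (h : Matrix (Fin 2) (Fin 2) ℤ).trace := by
  rw [Matrix.SpecialLinearGroup.coe_mul, Matrix.trace_mul_comm, ← Matrix.SpecialLinearGroup.coe_mul,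
    inv_mul_cancel_left]

/-- functions on cusps attached to a parabolic homomorphism -/
theorem exists_cusp_fun (φ : Additive Γ →+ B)
    (hφ : ∀ γ : Γ, ((γ : SL(2, ℤ)) : Matrix (Fin 2) (Fin 2) ℤ).trace ^ 2 = 4 →
      φ (Additive.ofMul γ) = 0) :
    ∃ f : SL(2, ℤ) → B, ∀ (γ : Γ) (g t : SL(2, ℤ)), t ∈ PP →
      f (γ * g * t) = φ (Additive.ofMul γ) + f g := by
  have h := fun g => DoubleCoset.mk_out_eq_mul Γ PP g
  choose a b ha hb hab using h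
  refine ⟨fun g => - φ (Additive.ofMul ⟨a g, ha g⟩), fun γ g t ht => ?_⟩
  have h1 : DoubleCoset.mk Γ PP (γ * g * t) = DoubleCoset.mk Γ PP g := by
    rw [eq_comm, DoubleCoset.eq]
    exact ⟨γ, γ.2, t, ht, rfl⟩
  have h2 : a g * g * b g = a (γ * g * t) * (γ * g * t) * b (γ * g * t) := by
    rw [← hab, ← hab, h1]
  set g' := (γ : SL(2, ℤ)) * g * t with hg'
  have h3 : φ (Additive.ofMul ((⟨a g, ha g⟩ : Γ)⁻¹ * ⟨a g', ha g'⟩ * γ)) = 0 := by
    apply hφ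
    have : (((⟨a g, ha g⟩ : Γ)⁻¹ * ⟨a g', ha g'⟩ * γ : Γ) : SL(2, ℤ)) =
        g * (b g * (b g')⁻¹ * t⁻¹) * g⁻¹ := by
      change (a g)⁻¹ * a g' * γ = _
      have h4 : a g' = a g * g * b g * (b g')⁻¹ * t⁻¹ * g⁻¹ * (γ : SL(2, ℤ))⁻¹ := by
        rw [h2, hg']
        group
      rw [h4]
      group
    rw [this, trace_conj]
    exact trace_of_mem_PP (mul_mem (mul_mem (hb g) (inv_mem (hb g'))) (inv_mem ht))
  rw [ofMul_mul, ofMul_mul, map_add, map_add, ofMul_inv, map_neg] at h3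
  have h4 : φ (Additive.ofMul ⟨a g', ha g'⟩) = φ (Additive.ofMul ⟨a g, ha g⟩) - φ (Additive.ofMul γ) := by
    rw [← sub_eq_zero]
    rw [← h3]
    abel
  change - φ (Additive.ofMul ⟨a g', ha g'⟩) = _
  rw [h4, neg_sub, sub_eq_add_neg]

end Cusp

/-! ### the main theorem -/

section Main

variable {Γ : Subgroup SL(2, ℤ)} {A B : Type*} [AddCommGroup A] [AddCommGroup B]

lemma neg_one_smul_quot (hneg : (-1 : SL(2, ℤ)) ∈ Γ) (x : SL(2, ℤ) ⧸ Γ) :
    (-1 : SL(2, ℤ)) • x = x := by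
  obtain ⟨g, rfl⟩ := QuotientGroup.mk_surjective x
  change ((-1 * g : SL(2, ℤ)) : SL(2, ℤ) ⧸ Γ) = _
  rw [eq_comm, QuotientGroup.eq]
  have : g⁻¹ * (-1 * g) = -1 := by
    rw [neg_one_mul, mul_neg, inv_mul_cancel]
  rw [this]
  exact hneg

/-- the cocycle of a function on cusps -/
def cocOf (f : SL(2, ℤ) → B) (g : SL(2, ℤ)) (x : SL(2, ℤ) ⧸ Γ) : B :=
  f x.out⁻¹ - f (x.out⁻¹ * g⁻¹)

lemma cocOf_mk {f : SL(2, ℤ) → B} {φ : Additive Γ →+ B}
    (hf : ∀ (γ : Γ) (g t : SL(2, ℤ)), t ∈ PP → f (γ * g * t) = φ (Additive.ofMul γ) + f g)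
    (g h : SL(2, ℤ)) : cocOf f g (h : SL(2, ℤ) ⧸ Γ) = f h⁻¹ - f (h⁻¹ * g⁻¹) := by
  obtain ⟨γ, hγ⟩ := QuotientGroup.mk_out_eq_mul Γ h
  rw [cocOf, hγ, mul_inv_rev]
  have h1 := hf γ⁻¹ h⁻¹ 1 (one_mem _)
  have h2 := hf γ⁻¹ (h⁻¹ * g⁻¹) 1 (one_mem _)
  rw [mul_one] at h1 h2
  rw [Subgroup.coe_inv] at h1 h2
  rw [h1, mul_assoc, h2]
  abel

lemma isCoc_cocOf {f : SL(2, ℤ) → B} {φ : Additive Γ →+ B}
    (hf : ∀ (γ : Γ) (g t : SL(2, ℤ)), t ∈ PP → f (γ * g * t) = φ (Additive.ofMul γ) + f g) :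
    IsCoc (X := SL(2, ℤ) ⧸ Γ) (cocOf f) := by
  intro g h x
  obtain ⟨k, rfl⟩ := QuotientGroup.mk_surjective x
  change cocOf f (g * h) (k : SL(2, ℤ) ⧸ Γ) = cocOf f g ((h * k : SL(2, ℤ)) : SL(2, ℤ) ⧸ Γ) +
    cocOf f h (k : SL(2, ℤ) ⧸ Γ)
  rw [cocOf_mk hf, cocOf_mk hf, cocOf_mk hf, mul_inv_rev, mul_inv_rev, mul_assoc]
  abel

lemma cocOf_fixed {f : SL(2, ℤ) → B} {φ : Additive Γ →+ B}
    (hφ : ∀ γ : Γ, ((γ : SL(2, ℤ)) : Matrix (Fin 2) (Fin 2) ℤ).trace ^ 2 ≤ 4 →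
      φ (Additive.ofMul γ) = 0)
    (hf : ∀ (γ : Γ) (g t : SL(2, ℤ)), t ∈ PP → f (γ * g * t) = φ (Additive.ofMul γ) + f g)
    {g : SL(2, ℤ)} (hg : (g : Matrix (Fin 2) (Fin 2) ℤ).trace ^ 2 ≤ 4) {x : SL(2, ℤ) ⧸ Γ}
    (hx : g • x = x) : cocOf f g x = 0 := by
  obtain ⟨h, rfl⟩ := QuotientGroup.mk_surjective x
  have h1 : h⁻¹ * g * h ∈ Γ := by
    have : ((h : SL(2, ℤ)) : SL(2, ℤ) ⧸ Γ) = ((g * h : SL(2, ℤ)) : SL(2, ℤ) ⧸ Γ) := hx.symm
    rw [QuotientGroup.eq] at this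
    rwa [mul_assoc]
  change cocOf f g (h : SL(2, ℤ) ⧸ Γ) = 0
  rw [cocOf_mk hf]
  have h2 := hf (⟨_, h1⟩)⁻¹ h⁻¹ 1 (one_mem _)
  rw [mul_one, Subgroup.coe_inv] at h2
  have h3 : (h⁻¹ * g * h)⁻¹ * h⁻¹ = h⁻¹ * g⁻¹ := by group
  have h4 : φ (Additive.ofMul (⟨_, h1⟩ : Γ)) = 0 := by
    apply hφ
    have := trace_conj h⁻¹ g
    rw [inv_inv] at this
    change ((h⁻¹ * g * h : SL(2, ℤ)) : Matrix (Fin 2) (Fin 2) ℤ).trace ^ 2 ≤ 4
    rw [this]
    exact hg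
  rw [h3, ofMul_inv, map_neg, h4, neg_zero, zero_add] at h2
  rw [h2, sub_self]

lemma trace_S : ((S : SL(2, ℤ)) : Matrix (Fin 2) (Fin 2) ℤ).trace ^ 2 ≤ 4 := by
  obtain ⟨e1, e2, e3, e4⟩ := S_e
  rw [Matrix.trace_fin_two, e1, e4]; norm_num

lemma trace_V : ((S * T : SL(2, ℤ)) : Matrix (Fin 2) (Fin 2) ℤ).trace ^ 2 ≤ 4 := by
  obtain ⟨e1, e2, e3, e4⟩ := V_e
  rw [Matrix.trace_fin_two, e1, e4]; norm_num

/-- parabolic homomorphisms vanish on elliptic elements when the target is torsion free -/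
lemma eq_zero_of_trace_le [IsAddTorsionFree A] {ψ : Additive Γ →+ A}
    (hψ : ∀ γ : Γ, ((γ : SL(2, ℤ)) : Matrix (Fin 2) (Fin 2) ℤ).trace ^ 2 = 4 →
      ψ (Additive.ofMul γ) = 0) (γ : Γ)
    (hγ : ((γ : SL(2, ℤ)) : Matrix (Fin 2) (Fin 2) ℤ).trace ^ 2 ≤ 4) :
    ψ (Additive.ofMul γ) = 0 := by
  set M : Matrix (Fin 2) (Fin 2) ℤ := ((γ : SL(2, ℤ)) : Matrix (Fin 2) (Fin 2) ℤ) with hM
  have hdet : M.det = 1 := (γ : SL(2, ℤ)).det_coe
  set t := M.trace with ht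
  have hCH : M ^ 2 = t • M - 1 := by
    have h2 : M 0 0 + M 1 1 = t := by rw [ht, Matrix.trace_fin_two]
    rw [Matrix.det_fin_two] at hdet
    rw [sq]
    ext i j
    fin_cases i <;> fin_cases j
    · simp [Matrix.mul_apply, Fin.sum_univ_two, Matrix.smul_apply, -zsmul_eq_mul]
      linear_combination (M 0 0) * h2 - hdet
    · simp [Matrix.mul_apply, Fin.sum_univ_two, Matrix.smul_apply, -zsmul_eq_mul]
      linear_combination (M 0 1) * h2
    · simp [Matrix.mul_apply, Fin.sum_univ_two, Matrix.smul_apply, -zsmul_eq_mul]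
      linear_combination (M 1 0) * h2
    · simp [Matrix.mul_apply, Fin.sum_univ_two, Matrix.smul_apply, -zsmul_eq_mul]
      linear_combination (M 1 1) * h2 - hdet
  have htb : t = 0 ∨ t = 1 ∨ t = -1 ∨ t ^ 2 = 4 := by
    have h1 : t ≤ 2 := by nlinarith
    have h2 : -2 ≤ t := by nlinarith
    interval_cases t <;> simp
  have hn : ∃ n : ℕ, n ≠ 0 ∧ (((γ ^ n : Γ) : SL(2, ℤ)) : Matrix (Fin 2) (Fin 2) ℤ).trace ^ 2 = 4 := by
    rcases htb with h | h | h | h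
    · refine ⟨2, by norm_num, ?_⟩
      have : (((γ ^ 2 : Γ) : SL(2, ℤ)) : Matrix (Fin 2) (Fin 2) ℤ) = -1 := by
        change M ^ 2 = -1
        rw [hCH, h]; simp
      rw [this]
      simp
    · refine ⟨3, by norm_num, ?_⟩
      have : (((γ ^ 3 : Γ) : SL(2, ℤ)) : Matrix (Fin 2) (Fin 2) ℤ) = -1 := by
        change M ^ 3 = -1
        rw [pow_succ, hCH, h, sub_mul, smul_mul_assoc, ← sq, hCH, h]; simp
      rw [this]
      simp
    · refine ⟨3, by norm_num, ?_⟩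
      have : (((γ ^ 3 : Γ) : SL(2, ℤ)) : Matrix (Fin 2) (Fin 2) ℤ) = 1 := by
        change M ^ 3 = 1
        rw [pow_succ, hCH, h, sub_mul, smul_mul_assoc, ← sq, hCH, h]; simp
      rw [this]
      simp
    · refine ⟨1, by norm_num, ?_⟩
      rw [pow_one]; exact h
  obtain ⟨n, hn, htr⟩ := hn
  have h1 := hψ _ htr
  rw [ofMul_pow, map_nsmul] at h1
  exact (nsmul_eq_zero_iff_right hn).mp h1

/-- **Lifting of parabolic homomorphisms.** -/
theorem exists_lift_hom (hneg : (-1 : SL(2, ℤ)) ∈ Γ) [Γ.FiniteIndex] [IsAddTorsionFree A]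
    (π : A →+ B) (hπ : Function.Surjective π) (φ : Additive Γ →+ B)
    (hφ : ∀ γ : Γ, ((γ : SL(2, ℤ)) : Matrix (Fin 2) (Fin 2) ℤ).trace ^ 2 ≤ 4 →
      φ (Additive.ofMul γ) = 0) :
    ∃ ψ : Additive Γ →+ A, (∀ γ : Γ, ((γ : SL(2, ℤ)) : Matrix (Fin 2) (Fin 2) ℤ).trace ^ 2 ≤ 4 →
      ψ (Additive.ofMul γ) = 0) ∧ ∀ γ, π (ψ γ) = φ γ := by
  obtain ⟨f, hf⟩ := exists_cusp_fun φ fun γ hγ => hφ γ hγ.le
  set X := SL(2, ℤ) ⧸ Γ with hXdef
  have hX : ∀ x : X, (-1 : SL(2, ℤ)) • x = x := neg_one_smul_quot hneg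
  set c : SL(2, ℤ) → X → B := cocOf f with hc
  have hcoc : IsCoc c := isCoc_cocOf hf
  set ξ : X → B := fun x => c S x with hξ
  have hcT : ∀ x, c T x = 0 := by
    intro x
    obtain ⟨h, rfl⟩ := QuotientGroup.mk_surjective x
    change cocOf f T (h : X) = 0
    rw [cocOf_mk hf]
    have h1 := hf 1 h⁻¹ T⁻¹ (inv_mem (show (T : SL(2, ℤ)) 1 0 = 0 by decide))
    rw [Subgroup.coe_one, one_mul, ofMul_one, map_zero, zero_add] at h1
    rw [h1, sub_self]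
  have hcm : ∀ x, c (-1) x = 0 := by
    intro x
    obtain ⟨h, rfl⟩ := QuotientGroup.mk_surjective x
    change cocOf f (-1) (h : X) = 0
    rw [cocOf_mk hf]
    have h1 := hf 1 h⁻¹ (-1)⁻¹ (inv_mem (show ((-1 : SL(2, ℤ))) 1 0 = 0 by decide))
    rw [Subgroup.coe_one, one_mul, ofMul_one, map_zero, zero_add] at h1
    rw [h1, sub_self]
  have hcS2 : ∀ x, c S x + c S ((S : SL(2, ℤ)) • x) = 0 := by
    intro x
    rw [add_comm, ← hcoc, ← sq, S_sq', hcm]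
  have hcV : ∀ x, c (S * T) x = - ξ ((S * T : SL(2, ℤ)) • x) := by
    intro x
    rw [hcoc, hcT, add_zero, mul_smul, eq_neg_iff_add_eq_zero]
    exact hcS2 _
  have hM : IsManin ξ := by
    refine ⟨hcS2, fun x hx => cocOf_fixed hφ hf trace_S hx, fun x => ?_, fun x hx => ?_⟩
    · have h1 : c ((S * T) ^ 3) (((S * T) ^ 2 : SL(2, ℤ)) • x) = 0 := by rw [V_cube', hcm]
      have hv : ((S * T) : SL(2, ℤ)) • ((S * T) ^ 2 : SL(2, ℤ)) • x = x := by
        rw [smul_smul, ← pow_succ', V_cube', hX]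
      rw [pow_succ, hcoc, hv, sq, hcoc, hcV, hcV, hcV] at h1
      rw [sq] at hv
      rw [hv] at h1
      rw [← neg_eq_zero, ← h1]
      abel
    · have h1 := cocOf_fixed hφ hf trace_V hx
      have h2 := hcV x
      rw [hx] at h2
      have h3 : c (S * T) x = 0 := h1
      rw [h3] at h2
      exact neg_eq_zero.mp h2.symm
  obtain ⟨ξ', hM', hlift⟩ := exists_lift_manin hX π hπ ξ hM
  obtain ⟨c', hcoc', hS', hV'⟩ := exists_coc hX hM'
  have hT' := coc_T hcoc' hM' hS' hV'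
  have hm' := coc_neg_one hcoc' hM' hS'
  have hcomp : ∀ g x, π (c' g x) = c g x := by
    intro g x
    refine IsCoc.ext (c := fun g x => π (c' g x)) (c' := c) ?_ hcoc ?_ ?_ g x
    · intro g h x
      simp only [hcoc' g h x, map_add]
    · intro x
      simp only [hS', hlift]; rfl
    · intro x
      simp only [hV', map_neg, hlift, hcV]
  set x₀ : X := ((1 : SL(2, ℤ)) : X) with hx₀
  have hfix : ∀ g ∈ Γ, (g : SL(2, ℤ)) • x₀ = x₀ := by
    intro g hg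
    change ((g * 1 : SL(2, ℤ)) : X) = ((1 : SL(2, ℤ)) : X)
    rw [QuotientGroup.eq]
    simpa using hg
  let ψ : Additive Γ →+ A := AddMonoidHom.mk' (fun γ => c' ((Additive.toMul γ : Γ) : SL(2, ℤ)) x₀) (by
    intro γ δ
    change c' (((Additive.toMul γ : Γ) : SL(2, ℤ)) * ((Additive.toMul δ : Γ) : SL(2, ℤ))) x₀ = _
    rw [hcoc', hfix _ (Additive.toMul δ).2])
  have hψ : ∀ γ : Γ, ((γ : SL(2, ℤ)) : Matrix (Fin 2) (Fin 2) ℤ).trace ^ 2 = 4 →
      ψ (Additive.ofMul γ) = 0 := by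
    intro γ hγ
    obtain ⟨δ, hδ⟩ := EichlerShimura.exists_fixed_vector (γ : SL(2, ℤ)) hγ
    change c' (γ : SL(2, ℤ)) x₀ = 0
    have h1 : (γ : SL(2, ℤ)) = δ * ((δ⁻¹ * γ * δ) * δ⁻¹) := by group
    have h2 : (δ⁻¹ * (γ : SL(2, ℤ)) * δ) • δ⁻¹ • x₀ = δ⁻¹ • x₀ := by
      rw [smul_smul]
      have : δ⁻¹ * (γ : SL(2, ℤ)) * δ * δ⁻¹ = δ⁻¹ * γ := by group
      rw [this, mul_smul, hfix _ γ.2]
    rw [h1, hcoc', hcoc', coc_upper hcoc' hT' hm' hδ, mul_smul, h2, zero_add, hcoc'.inv,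
      add_neg_cancel]
  refine ⟨ψ, fun γ hγ => eq_zero_of_trace_le hψ γ hγ, fun γ => ?_⟩
  change π (c' ((Additive.toMul γ : Γ) : SL(2, ℤ)) x₀) = φ γ
  rw [hcomp]
  change cocOf f _ ((1 : SL(2, ℤ)) : X) = _
  rw [cocOf_mk hf]
  have h1 := hf (Additive.toMul γ)⁻¹ 1 1 (one_mem _)
  rw [mul_one, mul_one, Subgroup.coe_inv, ofMul_inv, map_neg] at h1
  rw [inv_one, one_mul, h1]
  rw [ofMul_toMul]
  abel

end Main

end Fermat.Agent.SL2Pres
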