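import Mathlib

/-!
# The presentation `PSL(2, ℤ) = ℤ/2 * ℤ/3`

Main result: `exists_hom`: for a group `K` and `a b : K` with `a ^ 2 = 1`, `b ^ 3 = 1` there is a
homomorphism `SL(2, ℤ) →* K` with `S ↦ a`, `S * T ↦ b`.
-/

set_option autoImplicit false

noncomputable section

namespace Fermat.Agent.SL2Pres

open ModularGroup Monoid OnePoint
open scoped MatrixGroups Pointwise

/-- the homomorphism from a cyclic group -/
def zl {G : Type*} [Group G] (n : ℕ) (g : G) (h : g ^ n = 1) : Multiplicative (ZMod n) →* G :=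
  AddMonoidHom.toMultiplicativeLeft (ZMod.lift n ⟨zmultiplesHom (Additive G) (Additive.ofMul g), by
    rw [zmultiplesHom_apply]
    rw [← ofMul_zpow, zpow_natCast, h]; rfl⟩)

lemma zl_intCast {G : Type*} [Group G] (n : ℕ) (g : G) (h : g ^ n = 1) (k : ℤ) :
    zl n g h (Multiplicative.ofAdd ((k : ZMod n))) = g ^ k := by
  change Additive.toMul (ZMod.lift n _ (k : ZMod n)) = _
  rw [ZMod.lift_coe]
  rfl

lemma zl_one {G : Type*} [Group G] (n : ℕ) (g : G) (h : g ^ n = 1) :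
    zl n g h (Multiplicative.ofAdd (1 : ZMod n)) = g := by
  have := zl_intCast n g h 1
  simpa using this

/-- orders of the two factors -/
abbrev ord (b : Bool) : ℕ := cond b 3 2

/-- the two factors -/
abbrev HH (b : Bool) : Type := Multiplicative (ZMod (ord b))

/-- the permutation action on the projective line -/
def ρ : SL(2, ℤ) →* Equiv.Perm (OnePoint ℚ) :=
  (MulAction.toPermHom (GL (Fin 2) ℚ) (OnePoint ℚ)).comp (Matrix.SpecialLinearGroup.mapGL ℚ)

lemma ρ_some (g : SL(2, ℤ)) (x : ℚ) : ρ g (x : OnePoint ℚ) =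
    if (g 1 0 : ℚ) * x + g 1 1 = 0 then ∞ else (((g 0 0 : ℚ) * x + g 0 1) / (g 1 0 * x + g 1 1) : ℚ) := by
  change (Matrix.SpecialLinearGroup.mapGL ℚ g : GL (Fin 2) ℚ) • (x : OnePoint ℚ) = _
  rw [OnePoint.smul_some_eq_ite]
  simp

lemma ρ_infty (g : SL(2, ℤ)) : ρ g (∞ : OnePoint ℚ) =
    if (g 1 0 : ℚ) = 0 then ∞ else (((g 0 0 : ℚ)) / (g 1 0) : ℚ) := by
  change (Matrix.SpecialLinearGroup.mapGL ℚ g : GL (Fin 2) ℚ) • (∞ : OnePoint ℚ) = _
  rw [OnePoint.smul_infty_eq_ite]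
  simp

lemma ρ_neg_one : ρ (-1) = 1 := by
  ext x
  induction x using OnePoint.rec with
  | infty => rw [ρ_infty]; simp
  | coe x => rw [ρ_some]; simp

lemma S_sq' : (S ^ 2 : SL(2, ℤ)) = -1 := by decide
lemma V_cube' : ((S * T) ^ 3 : SL(2, ℤ)) = -1 := by decide
lemma S_e : (S : SL(2, ℤ)) 0 0 = 0 ∧ (S : SL(2, ℤ)) 0 1 = -1 ∧ (S : SL(2, ℤ)) 1 0 = 1 ∧
    (S : SL(2, ℤ)) 1 1 = 0 := by decide
lemma V_e : (S * T : SL(2, ℤ)) 0 0 = 0 ∧ (S * T : SL(2, ℤ)) 0 1 = -1 ∧ (S * T : SL(2, ℤ)) 1 0 = 1 ∧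
    (S * T : SL(2, ℤ)) 1 1 = 1 := by decide
lemma V2_e : ((S * T) ^ 2 : SL(2, ℤ)) 0 0 = -1 ∧ ((S * T) ^ 2 : SL(2, ℤ)) 0 1 = -1 ∧
    ((S * T) ^ 2 : SL(2, ℤ)) 1 0 = 1 ∧ ((S * T) ^ 2 : SL(2, ℤ)) 1 1 = 0 := by decide

lemma ρS : (ρ S) ^ 2 = 1 := by rw [← map_pow, S_sq', ρ_neg_one]
lemma ρV : (ρ (S * T)) ^ 3 = 1 := by rw [← map_pow, V_cube', ρ_neg_one]

/-- the maps from the factors -/
def ff {G : Type*} [Group G] {a b : G} (ha : a ^ 2 = 1) (hb : b ^ 3 = 1) : (i : Bool) → HH i →* G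
  | false => zl 2 a ha
  | true => zl 3 b hb

/-- ping pong sets -/
def XX (b : Bool) : Set (OnePoint ℚ) :=
  cond b {x | ∃ q : ℚ, q < 0 ∧ x = q} {x | ∃ q : ℚ, 0 < q ∧ x = q}

lemma closure_S_V : Subgroup.closure ({S, S * T} : Set SL(2, ℤ)) = ⊤ := by
  rw [eq_top_iff, ← SpecialLinearGroup.SL2Z_generators, Subgroup.closure_le]
  have hS : S ∈ Subgroup.closure ({S, S * T} : Set SL(2, ℤ)) := Subgroup.subset_closure (by simp)
  have hU : S * T ∈ Subgroup.closure ({S, S * T} : Set SL(2, ℤ)) :=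
    Subgroup.subset_closure (by simp)
  rintro g (rfl | rfl)
  · exact hS
  · have := mul_mem (inv_mem hS) hU
    rwa [inv_mul_cancel_left] at this

theorem lift_injective : Function.Injective (CoprodI.lift (ff ρS ρV)) := by
  refine CoprodI.lift_injective_of_ping_pong (ff ρS ρV) (Or.inr ⟨true, ?_⟩) XX ?_ ?_ ?_
  · change (3 : Cardinal) ≤ Cardinal.mk (Multiplicative (ZMod 3))
    rw [Cardinal.mk_fintype]
    simp
  · rintro (_ | _)
    · exact ⟨((1 : ℚ) : OnePoint ℚ), 1, by norm_num, rfl⟩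
    · exact ⟨((-1 : ℚ) : OnePoint ℚ), -1, by norm_num, rfl⟩
  · have : Disjoint (XX true) (XX false) := by
      rw [Set.disjoint_left]
      rintro x ⟨q, hq, rfl⟩ ⟨q', hq', h⟩
      rw [OnePoint.coe_eq_coe] at h
      linarith
    rintro (_ | _) (_ | _) h
    · exact absurd rfl h
    · exact this.symm
    · exact this
    · exact absurd rfl h
  · rintro (_ | _) (_ | _) h
    · exact absurd rfl h
    · rintro x hx
      have hx' : x = Multiplicative.ofAdd (1 : ZMod 2) := by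
        revert hx
        revert x
        change ∀ x : Multiplicative (ZMod 2), x ≠ 1 → x = Multiplicative.ofAdd (1 : ZMod 2)
        decide
      subst hx'
      have h0 : ff ρS ρV false (Multiplicative.ofAdd (1 : ZMod 2)) = ρ S := zl_one 2 (ρ S) ρS
      rw [h0]
      rintro _ ⟨_, ⟨q, hq, rfl⟩, rfl⟩
      change ρ S (q : OnePoint ℚ) ∈ _
      obtain ⟨e1, e2, e3, e4⟩ := S_e
      rw [ρ_some, e1, e2, e3, e4]
      have h1 : ((1 : ℤ) : ℚ) * q + ((0 : ℤ) : ℚ) ≠ 0 := by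
        push_cast; linarith
      rw [if_neg h1]
      refine ⟨_, ?_, rfl⟩
      push_cast
      rw [zero_mul, zero_add, one_mul, add_zero]
      exact div_pos_of_neg_of_neg (by norm_num) hq
    · rintro x hx
      have hx' : x = Multiplicative.ofAdd (1 : ZMod 3) ∨ x = Multiplicative.ofAdd ((2 : ℤ) : ZMod 3) := by
        revert hx
        revert x
        change ∀ x : Multiplicative (ZMod 3), x ≠ 1 → x = Multiplicative.ofAdd (1 : ZMod 3) ∨
          x = Multiplicative.ofAdd ((2 : ℤ) : ZMod 3)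
        decide
      rcases hx' with rfl | rfl
      · have h0 : ff ρS ρV true (Multiplicative.ofAdd (1 : ZMod 3)) = ρ (S * T) :=
          zl_one 3 (ρ (S * T)) ρV
        rw [h0]
        rintro _ ⟨_, ⟨q, hq, rfl⟩, rfl⟩
        change ρ (S * T) (q : OnePoint ℚ) ∈ _
        obtain ⟨e1, e2, e3, e4⟩ := V_e
        rw [ρ_some, e1, e2, e3, e4]
        have h1 : ((1 : ℤ) : ℚ) * q + ((1 : ℤ) : ℚ) ≠ 0 := by
          push_cast; linarith
        rw [if_neg h1]
        refine ⟨_, ?_, rfl⟩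
        push_cast
        rw [zero_mul, zero_add, one_mul]
        exact div_neg_of_neg_of_pos (by norm_num) (by linarith)
      · have h0 : ff ρS ρV true (Multiplicative.ofAdd ((2 : ℤ) : ZMod 3)) = ρ ((S * T) ^ 2) := by
          rw [map_pow]
          exact zl_intCast 3 (ρ (S * T)) ρV 2
        rw [h0]
        rintro _ ⟨_, ⟨q, hq, rfl⟩, rfl⟩
        change ρ ((S * T) ^ 2) (q : OnePoint ℚ) ∈ _
        obtain ⟨e1, e2, e3, e4⟩ := V2_e
        rw [ρ_some, e1, e2, e3, e4]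
        have h1 : ((1 : ℤ) : ℚ) * q + ((0 : ℤ) : ℚ) ≠ 0 := by
          push_cast; linarith
        rw [if_neg h1]
        refine ⟨_, ?_, rfl⟩
        push_cast
        rw [add_zero, one_mul]
        exact div_neg_of_neg_of_pos (by linarith) hq
    · exact absurd rfl h

lemma ρ_mem_range (g : SL(2, ℤ)) : ρ g ∈ (CoprodI.lift (ff ρS ρV)).range := by
  have hg : g ∈ Subgroup.closure ({S, S * T} : Set SL(2, ℤ)) := by rw [closure_S_V]; trivial
  induction hg using Subgroup.closure_induction with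
  | mem g hg =>
    rcases hg with rfl | rfl
    · refine ⟨CoprodI.of (i := false) (Multiplicative.ofAdd (1 : ZMod 2)), ?_⟩
      rw [CoprodI.lift_of]
      exact zl_one 2 (ρ S) ρS
    · refine ⟨CoprodI.of (i := true) (Multiplicative.ofAdd (1 : ZMod 3)), ?_⟩
      rw [CoprodI.lift_of]
      exact zl_one 3 (ρ (S * T)) ρV
  | one => rw [map_one ρ]; exact one_mem _
  | mul g h _ _ h1 h2 => rw [map_mul ρ g h]; exact mul_mem h1 h2
  | inv g _ h => rw [map_inv ρ g]; exact inv_mem h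

/-- **The presentation of `PSL(2, ℤ)`.** -/
theorem exists_hom {K : Type*} [Group K] {a b : K} (ha : a ^ 2 = 1) (hb : b ^ 3 = 1) :
    ∃ Ψ : SL(2, ℤ) →* K, Ψ S = a ∧ Ψ (S * T) = b := by
  let e : CoprodI HH ≃* (CoprodI.lift (ff ρS ρV)).range := MonoidHom.ofInjective lift_injective
  let ρ' : SL(2, ℤ) →* (CoprodI.lift (ff ρS ρV)).range := ρ.codRestrict _ ρ_mem_range
  refine ⟨(CoprodI.lift (ff ha hb)).comp (e.symm.toMonoidHom.comp ρ'), ?_, ?_⟩
  · have h1 : e (CoprodI.of (i := false) (Multiplicative.ofAdd (1 : ZMod 2))) = ρ' S := by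
      apply Subtype.ext
      change CoprodI.lift (ff ρS ρV) _ = ρ S
      rw [CoprodI.lift_of]
      exact zl_one 2 (ρ S) ρS
    change CoprodI.lift (ff ha hb) (e.symm (ρ' S)) = a
    rw [← h1, MulEquiv.symm_apply_apply, CoprodI.lift_of]
    exact zl_one 2 a ha
  · have h1 : e (CoprodI.of (i := true) (Multiplicative.ofAdd (1 : ZMod 3))) = ρ' (S * T) := by
      apply Subtype.ext
      change CoprodI.lift (ff ρS ρV) _ = ρ (S * T)
      rw [CoprodI.lift_of]
      exact zl_one 3 (ρ (S * T)) ρV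
    change CoprodI.lift (ff ha hb) (e.symm (ρ' (S * T))) = b
    rw [← h1, MulEquiv.symm_apply_apply, CoprodI.lift_of]
    exact zl_one 3 b hb

end Fermat.Agent.SL2Pres
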