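import Fermat.Agent.SL2Pres.Basic

/-!
# Lifting of Manin symbols
-/

set_option autoImplicit false

noncomputable section

namespace Fermat.Agent.SL2Pres

open ModularGroup
open scoped MatrixGroups

section Rep

variable {X A : Type*} [AddCommGroup A]

/-- representation of a `2`-cocycle symbol as a difference -/
lemma exists_diff_two {s : X → X} (hs : ∀ x, s (s x) = x) {ξ : X → A}
    (h1 : ∀ x, ξ x + ξ (s x) = 0) (h0 : ∀ x, s x = x → ξ x = 0) :
    ∃ b : X → A, ∀ x, ξ x = b x - b (s x) := by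
  classical
  have hr : ∃ r : X → X, ∀ x, r (s x) = r x ∧ (r x = x ∨ r x = s x) := by
    let R : Setoid X := ⟨fun x y => y = x ∨ y = s x, ⟨fun x => Or.inl rfl, by
      rintro x y (rfl | rfl)
      · exact Or.inl rfl
      · exact Or.inr (hs _).symm, by
      rintro x y z (rfl | rfl) (rfl | rfl)
      · exact Or.inl rfl
      · exact Or.inr rfl
      · exact Or.inr rfl
      · exact Or.inl (hs _)⟩⟩
    refine ⟨fun x => (Quotient.mk R x).out, fun x => ⟨?_, ?_⟩⟩
    · have : Quotient.mk R (s x) = Quotient.mk R x := Quotient.sound (Or.inr (hs _).symm)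
      exact congrArg Quotient.out this
    · have : R x ((Quotient.mk R x).out) := Quotient.exact (Quotient.out_eq _).symm
      exact this
  obtain ⟨r, hr⟩ := hr
  refine ⟨fun x => if r x = x then 0 else ξ x, fun x => ?_⟩
  obtain ⟨e1, e2⟩ := hr x
  simp only [e1]
  by_cases hx : s x = x
  · rw [hx, sub_self, h0 x hx]
  · have e3 : ξ (s x) = - ξ x := by rw [← add_eq_zero_iff_neg_eq.mp (h1 x)]
    rcases e2 with e2 | e2
    · rw [e2, if_pos rfl, if_neg (Ne.symm hx), e3]; simp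
    · rw [e2, if_neg hx, if_pos rfl, sub_zero]

lemma exists_diff_three {v : X → X} (hv : ∀ x, v (v (v x)) = x) {ξ : X → A}
    (h1 : ∀ x, ξ x + ξ (v x) + ξ (v (v x)) = 0) (h0 : ∀ x, v x = x → ξ x = 0) :
    ∃ b : X → A, ∀ x, ξ x = b x - b (v x) := by
  classical
  have hr : ∃ r : X → X, ∀ x, r (v x) = r x ∧ (r x = x ∨ r x = v x ∨ r x = v (v x)) := by
    let R : Setoid X := ⟨fun x y => y = x ∨ y = v x ∨ y = v (v x), ⟨fun x => Or.inl rfl, by
      rintro x y (rfl | rfl | rfl)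
      · exact Or.inl rfl
      · exact Or.inr (Or.inr (hv _).symm)
      · exact Or.inr (Or.inl (hv _).symm), by
      rintro x y z (rfl | rfl | rfl) (rfl | rfl | rfl)
      · exact Or.inl rfl
      · exact Or.inr (Or.inl rfl)
      · exact Or.inr (Or.inr rfl)
      · exact Or.inr (Or.inl rfl)
      · exact Or.inr (Or.inr rfl)
      · exact Or.inl (hv _)
      · exact Or.inr (Or.inr rfl)
      · exact Or.inl (hv _)
      · exact Or.inr (Or.inl (congrArg v (hv _)))⟩⟩
    refine ⟨fun x => (Quotient.mk R x).out, fun x => ⟨?_, ?_⟩⟩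
    · have : Quotient.mk R (v x) = Quotient.mk R x := Quotient.sound (Or.inr (Or.inr (hv _).symm))
      exact congrArg Quotient.out this
    · have : R x ((Quotient.mk R x).out) := Quotient.exact (Quotient.out_eq _).symm
      exact this
  obtain ⟨r, hr⟩ := hr
  refine ⟨fun x => if r x = x then 0 else if r x = v (v x) then - ξ (v (v x)) else ξ x,
    fun x => ?_⟩
  obtain ⟨e1, e2⟩ := hr x
  simp only [e1]
  by_cases hx : v x = x
  · simp only [hx, sub_self, h0 x hx]
  · have hx' : v x ≠ x := hx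
    have hx2 : v (v x) ≠ x := by
      intro h
      have h2 := congrArg v h
      rw [hv] at h2
      exact hx h2.symm
    have hx3 : v (v x) ≠ v x := by
      intro h
      have h2 := congrArg v h
      rw [hv] at h2
      exact hx2 h2.symm
    have e3 := h1 x
    rcases e2 with e2 | e2 | e2
    · rw [e2, if_pos rfl, if_neg hx'.symm, hv, if_pos rfl]; simp
    · rw [e2, if_neg hx', if_neg hx3.symm, if_pos rfl, sub_zero]
    · rw [e2, if_neg hx2, if_pos rfl, if_neg hx3, hv, if_neg hx2]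
      rw [← sub_eq_zero]
      rw [← e3]
      abel

end Rep

section Conn

variable {X K : Type*} [AddCommGroup K] [MulAction SL(2, ℤ) X] [MulAction.IsPretransitive SL(2, ℤ) X]

variable (X K) in
/-- sums of differences -/
def WW : AddSubgroup (X → K) where
  carrier := {δ | ∃ b₁ b₂ : X → K, ∀ x, δ x = (b₁ x - b₁ ((S : SL(2, ℤ)) • x)) +
    (b₂ x - b₂ ((S * T : SL(2, ℤ)) • x))}
  zero_mem' := ⟨0, 0, fun x => by simp⟩
  add_mem' := by
    rintro δ δ' ⟨b₁, b₂, h⟩ ⟨b₁', b₂', h'⟩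
    refine ⟨b₁ + b₁', b₂ + b₂', fun x => ?_⟩
    simp only [Pi.add_apply, h, h']
    abel
  neg_mem' := by
    rintro δ ⟨b₁, b₂, h⟩
    refine ⟨-b₁, -b₂, fun x => ?_⟩
    simp only [Pi.neg_apply, h]
    abel

open scoped Classical in
lemma single_sub_mem (x y : X) (k : K) :
    (Pi.single x k - Pi.single y k : X → K) ∈ WW X K := by
  obtain ⟨g, rfl⟩ := MulAction.exists_smul_eq SL(2, ℤ) x y
  have hg : g ∈ Subgroup.closure ({S, S * T} : Set SL(2, ℤ)) := by rw [closure_S_V]; trivial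
  induction hg using Subgroup.closure_induction generalizing x with
  | mem g hg =>
    rcases hg with rfl | rfl
    · refine ⟨- Pi.single ((S : SL(2, ℤ)) • x) k, 0, fun z => ?_⟩
      simp only [Pi.sub_apply, Pi.neg_apply, Pi.zero_apply, sub_self, add_zero, Pi.single_apply]
      have : ((S : SL(2, ℤ)) • z = (S : SL(2, ℤ)) • x) ↔ z = x := smul_left_cancel_iff _
      simp only [this]
      abel
    · refine ⟨0, - Pi.single ((S * T : SL(2, ℤ)) • x) k, fun z => ?_⟩
      simp only [Pi.sub_apply, Pi.neg_apply, Pi.zero_apply, sub_self, zero_add, Pi.single_apply]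
      have : ((S * T : SL(2, ℤ)) • z = (S * T : SL(2, ℤ)) • x) ↔ z = x := smul_left_cancel_iff _
      simp only [this]
      abel
  | one => rw [one_smul, sub_self]; exact zero_mem _
  | mul g h _ _ h1 h2 =>
    have h3 := add_mem (h2 x) (h1 (h • x))
    rw [sub_add_sub_cancel, smul_smul] at h3
    exact h3
  | inv g _ h =>
    have h3 := neg_mem (h (g⁻¹ • x))
    rw [smul_inv_smul, neg_sub] at h3
    exact h3

theorem mem_WW_of_sum_eq_zero [Fintype X] (δ : X → K) (hδ : ∑ x, δ x = 0) : δ ∈ WW X K := by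
  classical
  rcases isEmpty_or_nonempty X with hX | ⟨⟨x₀⟩⟩
  · have : δ = 0 := Subsingleton.elim _ _
    rw [this]; exact zero_mem _
  have h1 : δ = ∑ x, (Pi.single x (δ x) - Pi.single x₀ (δ x)) := by
    rw [Finset.sum_sub_distrib]
    ext z
    rw [Pi.sub_apply, Finset.sum_apply, Finset.sum_apply]
    simp only [Pi.single_apply]
    rw [Finset.sum_ite_eq]
    simp only [Finset.mem_univ, if_true]
    by_cases hz : z = x₀
    · simp [hz, hδ]
    · simp [hz]
  rw [h1]
  exact sum_mem fun x _ => single_sub_mem x x₀ _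

end Conn

/-- Manin symbols -/
structure IsManin {X A : Type*} [AddCommGroup A] [MulAction SL(2, ℤ) X] (ξ : X → A) : Prop where
  two : ∀ x, ξ x + ξ ((S : SL(2, ℤ)) • x) = 0
  two' : ∀ x, (S : SL(2, ℤ)) • x = x → ξ x = 0
  three : ∀ x, ξ x + ξ ((S * T : SL(2, ℤ)) • x) +
    ξ ((S * T : SL(2, ℤ)) • (S * T : SL(2, ℤ)) • x) = 0
  three' : ∀ x, (S * T : SL(2, ℤ)) • x = x → ξ x = 0

section Lift

variable {X A B : Type*} [AddCommGroup A] [AddCommGroup B] [MulAction SL(2, ℤ) X]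
  [MulAction.IsPretransitive SL(2, ℤ) X]

theorem exists_lift_manin [Finite X] [IsAddTorsionFree A] (hX : ∀ x : X, (-1 : SL(2, ℤ)) • x = x)
    (π : A →+ B) (hπ : Function.Surjective π) (ξ : X → B) (hξ : IsManin ξ) :
    ∃ ξ' : X → A, IsManin ξ' ∧ ∀ x, π (ξ' x) = ξ x := by
  have : Fintype X := Fintype.ofFinite X
  have hs : ∀ x : X, (S : SL(2, ℤ)) • (S : SL(2, ℤ)) • x = x := by
    intro x
    rw [smul_smul, ← sq, S_sq', hX]
  have hv : ∀ x : X, (S * T : SL(2, ℤ)) • (S * T : SL(2, ℤ)) • (S * T : SL(2, ℤ)) • x = x := by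
    intro x
    rw [smul_smul, smul_smul, ← sq, ← pow_succ, V_cube', hX]
  obtain ⟨b, hb⟩ := exists_diff_two (s := fun x : X => (S : SL(2, ℤ)) • x) hs hξ.two hξ.two'
  obtain ⟨c, hc⟩ := exists_diff_three (v := fun x : X => (S * T : SL(2, ℤ)) • x) hv hξ.three hξ.three'
  choose l hl using hπ
  set ξ₁ : X → A := fun x => l (b x) - l (b ((S : SL(2, ℤ)) • x)) with hξ₁
  set ξ₂ : X → A := fun x => l (c x) - l (c ((S * T : SL(2, ℤ)) • x)) with hξ₂
  have p1 : ∀ x, π (ξ₁ x) = ξ x := by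
    intro x
    rw [hξ₁, map_sub, hl, hl]
    exact (hb x).symm
  have p2 : ∀ x, π (ξ₂ x) = ξ x := by
    intro x
    rw [hξ₂, map_sub, hl, hl]
    exact (hc x).symm
  let δ : X → π.ker := fun x => ⟨ξ₁ x - ξ₂ x, by rw [AddMonoidHom.mem_ker, map_sub, p1, p2, sub_self]⟩
  have s1 : ∑ x, ξ₁ x = 0 := by
    rw [hξ₁, Finset.sum_sub_distrib, sub_eq_zero]
    exact (Equiv.sum_comp (MulAction.toPerm (S : SL(2, ℤ))) (fun x => l (b x))).symm
  have s2 : ∑ x, ξ₂ x = 0 := by
    rw [hξ₂, Finset.sum_sub_distrib, sub_eq_zero]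
    exact (Equiv.sum_comp (MulAction.toPerm (S * T : SL(2, ℤ))) (fun x => l (c x))).symm
  have hδ : ∑ x, δ x = 0 := by
    apply Subtype.ext
    rw [AddSubgroup.val_finsetSum]
    change ∑ x, (ξ₁ x - ξ₂ x) = 0
    rw [Finset.sum_sub_distrib, s1, s2, sub_self]
  obtain ⟨d₁, d₂, hd⟩ := mem_WW_of_sum_eq_zero δ hδ
  have hd' : ∀ x, ξ₁ x - ξ₂ x = ((d₁ x : A) - d₁ ((S : SL(2, ℤ)) • x)) +
      ((d₂ x : A) - d₂ ((S * T : SL(2, ℤ)) • x)) := fun x => congrArg Subtype.val (hd x)
  set ξ' : X → A := fun x => ξ₁ x - ((d₁ x : A) - d₁ ((S : SL(2, ℤ)) • x)) with hξ'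
  have hξ2' : ∀ x, ξ' x = ξ₂ x + ((d₂ x : A) - d₂ ((S * T : SL(2, ℤ)) • x)) := by
    intro x
    rw [hξ']
    have := hd' x
    rw [sub_eq_iff_eq_add] at this
    simp only
    rw [this]
    abel
  refine ⟨ξ', ⟨?_, ?_, ?_, ?_⟩, ?_⟩
  · intro x
    simp only [hξ', hξ₁, hs]
    abel
  · intro x hx
    simp only [hξ', hξ₁, hx]
    abel
  · intro x
    simp only [hξ2', hξ₂, hv]
    abel
  · intro x hx
    simp only [hξ2', hξ₂, hx]
    abel
  · intro x
    simp only [hξ']
    rw [map_sub, p1, map_sub]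
    rw [(d₁ x).2, (d₁ _).2, sub_self, sub_zero]

end Lift

end Fermat.Agent.SL2Pres
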